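import Fermat.Statements.S20
import Fermat.Agent.S21.PartH
import Fermat.Agent.S20.PartA
import Fermat.Agent.S20.PartB
import Fermat.Agent.S20.PartC1
import Fermat.Agent.S20.PartC2
import Fermat.Agent.S20.PartC4

set_option autoImplicit false
open CuspForm

namespace Fermat.Agent.S20

open Fermat.Agent.S21
open UpperHalfPlane ModularForm Filter CongruenceSubgroup ModularCurve.Period
open scoped MatrixGroups Manifold Topology

namespace PartD

variable (N : ℕ) [NeZero N]

/-- `2 dim S₂ ≤ dim Hom_par` from the injectivity of the period pairing. -/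
lemma two_mul_finrank_le :
    2 * Module.finrank ℂ (CuspForm (Gamma0 N) 2)
      ≤ Module.finrank ℂ (parabolicHoms ℂ (Gamma0 N) ℂ) := by
  have := finiteDimensional_hom (Gamma0 N)
  have hinj := S21.PartH.injective_periodHomPair N
  have hr := S21.PartH.range_le N
  have h1 : Module.finrank ℂ (LinearMap.range (ModularCurve.periodHomPair N))
      = Module.finrank ℂ (CuspForm (Gamma0 N) 2 × CuspForm (Gamma0 N) 2) :=
    LinearMap.finrank_range_of_inj hinj
  have h2 := Submodule.finrank_mono hr
  have : FiniteDimensional ℂ (CuspForm (Gamma0 N) 2) := by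
    have := finiteDimensional_MF N 2
    have : FiniteDimensional ℂ (CF (Gamma0 N) 2) :=
      Submodule.finiteDimensional_of_le (S21.PartH.CF_le_MF _ _)
    exact (cfEquiv (Gamma0 N) 2).symm.finiteDimensional
  rw [h1, Module.finrank_prod] at h2
  omega

lemma main_nat :
    2 * Module.finrank ℂ (CuspForm (Gamma0 N) 2) + (Gamma0 N).index + ModularCurve.cuspCount N
      = Module.finrank ℂ (AS (Gamma0 N)) + Module.finrank ℂ (AU (Gamma0 N)) + 2 := by
  classical
  have : Fintype (SL(2, ℤ) ⧸ Gamma0 N) := Fintype.ofFinite _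
  obtain ⟨B⟩ := exists_freeBasis N
  have := finiteDimensional_MF N 2
  have : FiniteDimensional ℂ (CF (Gamma0 N) 2) :=
    Submodule.finiteDimensional_of_le (S21.PartH.CF_le_MF _ _)
  have hneg := S21.PartH.neg_one_mem_Gamma0 N
  have h1 := S21.PartH.count_main B hneg
  have h2 := S21.PartH.m_two_le B
  have h3 := S21.PartH.m_ten_le B
  have h4 := finrank_parabolicHoms_le (Γ := Gamma0 N) hneg
  have h5 := finrank_MF_two_le (Γ := Gamma0 N) inferInstance
  have h6 := two_mul_finrank_le N
  have h7 := finrank_AT N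
  have h8 : Module.finrank ℂ (CuspForm (Gamma0 N) 2) = Module.finrank ℂ (CF (Gamma0 N) 2) :=
    (cfEquiv (Gamma0 N) 2).finrank_eq
  have h9 : Fintype.card (SL(2, ℤ) ⧸ Gamma0 N) = (Gamma0 N).index := by
    rw [Subgroup.index, Nat.card_eq_fintype_card]
  omega

end PartD

theorem result (N : ℕ) [NeZero N] :
    (Module.finrank ℂ (CuspForm (CongruenceSubgroup.Gamma0 N) 2) : ℚ) = ModularCurve.genusFormula N := by
  have h1 := PartD.main_nat N
  have h2 := two_mul_finrank_AS N
  have h3 := three_mul_finrank_AU N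
  have h4 := index_Gamma0 N
  rw [h4] at h1 h2 h3
  have h1' : (2 * (Module.finrank ℂ (CuspForm (Gamma0 N) 2) : ℚ) + ModularCurve.dedekindPsi N
      + ModularCurve.cuspCount N
      = Module.finrank ℂ (AS (Gamma0 N)) + Module.finrank ℂ (AU (Gamma0 N)) + 2) := by
    exact_mod_cast h1
  have h2' : (2 * (Module.finrank ℂ (AS (Gamma0 N)) : ℚ) + ModularCurve.nuTwo N
      = ModularCurve.dedekindPsi N) := by
    exact_mod_cast h2
  have h3' : (3 * (Module.finrank ℂ (AU (Gamma0 N)) : ℚ) + 2 * ModularCurve.nuThree N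
      = 2 * ModularCurve.dedekindPsi N) := by
    exact_mod_cast h3
  unfold ModularCurve.genusFormula
  linarith

end Fermat.Agent.S20
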