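-- Statement S02: a counterexample for a prime p ≥ 5 yields a Frey package.
import Fermat.Statements.S02

set_option autoImplicit false
open FreyPackage

namespace Fermat.Agent.S02

/-- Core case: `gcd a b = 1`, `b` even. -/
theorem of_coprime_b_even (a b c : ℤ) (ha : a ≠ 0) (hb : b ≠ 0) (hc : c ≠ 0) (p : ℕ)
    (pp : p.Prime) (hp5 : 5 ≤ p) (H : a ^ p + b ^ p = c ^ p) (hab : gcd a b = 1)
    (hb2 : (2 : ℤ) ∣ b) : Nonempty FreyPackage := by
  have hpodd : Odd p := pp.odd_of_ne_two (by omega)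
  have hb2' : (b : ZMod 2) = 0 := (ZMod.intCast_zmod_eq_zero_iff_dvd b 2).2 hb2
  -- `a` is odd
  have ha_odd : ¬ (2 : ℤ) ∣ a := by
    intro h2a
    have : (2 : ℤ) ∣ gcd a b := dvd_gcd h2a hb2
    rw [hab] at this
    exact absurd this (by decide)
  have hmod : a % 4 = 1 ∨ a % 4 = 3 := by omega
  rcases hmod with h1 | h3
  · -- use the negated triple
    refine ⟨{ a := -a, b := -b, c := -c, ha0 := neg_ne_zero.2 ha, hb0 := neg_ne_zero.2 hb,
              hc0 := neg_ne_zero.2 hc, p := p, pp := pp, hp5 := hp5, hFLT := ?_, hgcdab := ?_,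
              ha4 := ?_, hb2 := ?_ }⟩
    · rw [hpodd.neg_pow, hpodd.neg_pow, hpodd.neg_pow, ← H]; ring
    · rw [gcd_neg, neg_gcd]; exact hab
    · have : ((-a : ℤ) : ZMod 4) = ((3 : ℤ) : ZMod 4) := by
        rw [ZMod.intCast_eq_intCast_iff_dvd_sub]
        push_cast
        omega
      rw [this]; rfl
    · push_cast; rw [hb2']; simp
  · refine ⟨{ a := a, b := b, c := c, ha0 := ha, hb0 := hb, hc0 := hc, p := p, pp := pp,
              hp5 := hp5, hFLT := H, hgcdab := hab, ha4 := ?_, hb2 := hb2' }⟩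
    have : ((a : ℤ) : ZMod 4) = ((3 : ℤ) : ZMod 4) := by
      rw [ZMod.intCast_eq_intCast_iff_dvd_sub]
      push_cast
      omega
    rw [this]; rfl

/-- Coprime case. -/
theorem of_coprime (a b c : ℤ) (ha : a ≠ 0) (hb : b ≠ 0) (hc : c ≠ 0) (p : ℕ)
    (pp : p.Prime) (hp5 : 5 ≤ p) (H : a ^ p + b ^ p = c ^ p) (hab : gcd a b = 1) :
    Nonempty FreyPackage := by
  have hpodd : Odd p := pp.odd_of_ne_two (by omega)
  have hp0 : p ≠ 0 := by omega
  by_cases hb2 : (2 : ℤ) ∣ b
  · exact of_coprime_b_even a b c ha hb hc p pp hp5 H hab hb2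
  by_cases ha2 : (2 : ℤ) ∣ a
  · exact of_coprime_b_even b a c hb ha hc p pp hp5 (by rw [add_comm]; exact H)
      (by rw [gcd_comm]; exact hab) ha2
  -- both odd: `c` is even
  have hc2 : (2 : ℤ) ∣ c := by
    have ha' : Odd a := by
      rw [← Int.not_even_iff_odd, even_iff_two_dvd]; exact ha2
    have hb' : Odd b := by
      rw [← Int.not_even_iff_odd, even_iff_two_dvd]; exact hb2
    have : Even (c ^ p) := by
      rw [← H]; exact (ha'.pow).add_odd (hb'.pow)
    have := (Int.even_pow.1 this).1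
    exact even_iff_two_dvd.1 this
  have hac : gcd a c = 1 := by
    rw [← FreyPackage.gcdab_eq_gcdac (by omega : 0 < p) H]; exact hab
  refine of_coprime_b_even a (-c) (-b) ha (neg_ne_zero.2 hc) (neg_ne_zero.2 hb) p pp hp5 ?_ ?_
    ((dvd_neg).2 hc2)
  · rw [hpodd.neg_pow, hpodd.neg_pow, ← H]; ring
  · rw [gcd_neg]; exact hac

theorem result (a b c : ℤ) (ha : a ≠ 0) (hb : b ≠ 0) (hc : c ≠ 0) (p : ℕ) (pp : p.Prime) (hp5 : 5 ≤ p) (H : a ^ p + b ^ p = c ^ p) : Nonempty FreyPackage := by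
  by_contra hno
  have hp0 : p ≠ 0 := by omega
  have key : FermatLastTheoremWith ℤ p := by
    refine fermatLastTheoremWith_of_fermatLastTheoremWith_coprime ?_
    intro a b c ha hb hc hgcd H
    apply hno
    refine of_coprime a b c ha hb hc p pp hp5 H ?_
    -- gcd a b divides c, hence divides gcd {a,b,c} = 1
    have hdc : gcd a b ∣ c := by
      rw [← Int.pow_dvd_pow_iff hp0, ← H]
      exact dvd_add (pow_dvd_pow_of_dvd (gcd_dvd_left a b) p)
        (pow_dvd_pow_of_dvd (gcd_dvd_right a b) p)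
    have h1 : gcd a b ∣ ({a, b, c} : Finset ℤ).gcd id := by
      apply Finset.dvd_gcd
      intro x hx
      simp only [Finset.mem_insert, Finset.mem_singleton] at hx
      rcases hx with rfl | rfl | rfl
      · exact gcd_dvd_left _ _
      · exact gcd_dvd_right _ _
      · exact hdc
    rw [hgcd] at h1
    have h2 : IsUnit (gcd a b) := isUnit_of_dvd_one h1
    have h3 := normalize_gcd a b
    rw [normalize_eq_one.2 h2] at h3
    exact h3.symm
  exact key a b c ha hb hc H

end Fermat.Agent.S02
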