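-- Statement S07: every weight-2 cusp form of level Γ₀(2) is zero.
import Fermat.Statements.S07
import Fermat.Prelude.Thm_ModularForm_sturm_bound_Gamma0

set_option autoImplicit false
open WeierstrassCurve WeierstrassCurve.Affine WeierstrassCurve.Affine.Point
open CuspForm ModularFormClass UpperHalfPlane
open ModularForm

namespace Fermat.Agent.S07

open scoped MatrixGroups

/-- First column of a matrix of `SL(2, ℤ)`, reduced mod 2. -/
def colMap (g : SL(2, ℤ)) : ZMod 2 × ZMod 2 := (((g 0 0 : ℤ) : ZMod 2), ((g 1 0 : ℤ) : ZMod 2))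

theorem inv_mul_mem_of_colMap_eq (g h : SL(2, ℤ)) (e : colMap g = colMap h) :
    g⁻¹ * h ∈ CongruenceSubgroup.Gamma0 2 := by
  rw [CongruenceSubgroup.Gamma0_mem]
  have e0 : ((g 0 0 : ℤ) : ZMod 2) = ((h 0 0 : ℤ) : ZMod 2) := congrArg Prod.fst e
  have e1 : ((g 1 0 : ℤ) : ZMod 2) = ((h 1 0 : ℤ) : ZMod 2) := congrArg Prod.snd e
  have : (g⁻¹ * h) 1 0 = - g 1 0 * h 0 0 + g 0 0 * h 1 0 := by
    simp [Matrix.SpecialLinearGroup.coe_mul, Matrix.SpecialLinearGroup.coe_inv,
      Matrix.adjugate_fin_two, Matrix.mul_apply, Fin.sum_univ_two]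
  rw [this]
  push_cast
  rw [e0, e1]
  ring

theorem index_Gamma0_two_le : (CongruenceSubgroup.Gamma0 2).index ≤ 4 := by
  rw [Subgroup.index_eq_card]
  have hinj : Function.Injective
      (fun q : SL(2, ℤ) ⧸ CongruenceSubgroup.Gamma0 2 => colMap q.out) := by
    intro q q' e
    have := inv_mul_mem_of_colMap_eq _ _ e
    rw [← QuotientGroup.eq] at this
    simpa using this
  calc Nat.card (SL(2, ℤ) ⧸ CongruenceSubgroup.Gamma0 2)
      ≤ Nat.card (ZMod 2 × ZMod 2) := Nat.card_le_card_of_injective _ hinj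
    _ = 4 := by simp

theorem result (f : CuspForm (CongruenceSubgroup.Gamma0 2) 2) : f = 0 := by
  have h1 : (1 : ℝ) ∈ (CongruenceSubgroup.Gamma0 2 : Subgroup (GL (Fin 2) ℝ)).strictPeriods := by
    simp [CongruenceSubgroup.strictPeriods_Gamma0]
  have key : (CuspForm.toModularFormₗ f) = 0 := by
    apply ModularForm.sturm_bound_Gamma0 2
    intro n hn
    have hn0 : n = 0 := by
      have := index_Gamma0_two_le
      omega
    subst hn0
    exact CuspFormClass.qExpansion_coeff_zero f one_pos h1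
  exact CuspForm.toModularFormₗ_injective (by rw [key, _root_.map_zero])

end Fermat.Agent.S07
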