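-- Statement S08: every weight-2 cusp form of level Γ₀(1) is zero.
import Fermat.Statements.S08
import Fermat.Prelude.Thm_ModularForm_sturm_bound_Gamma0

set_option autoImplicit false
open WeierstrassCurve WeierstrassCurve.Affine WeierstrassCurve.Affine.Point
open CuspForm ModularFormClass UpperHalfPlane
open ModularForm

namespace Fermat.Agent.S08

theorem index_Gamma0_one : (CongruenceSubgroup.Gamma0 1).index = 1 := by
  have : CongruenceSubgroup.Gamma0 1 = ⊤ := by
    ext g
    simp [CongruenceSubgroup.Gamma0_mem, Subsingleton.elim (_ : ZMod 1) 0]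
  rw [this, Subgroup.index_top]

theorem result (f : CuspForm (CongruenceSubgroup.Gamma0 1) 2) : f = 0 := by
  have h1 : (1 : ℝ) ∈ (CongruenceSubgroup.Gamma0 1 : Subgroup (GL (Fin 2) ℝ)).strictPeriods := by
    simp [CongruenceSubgroup.strictPeriods_Gamma0]
  have key : (CuspForm.toModularFormₗ f) = 0 := by
    apply ModularForm.sturm_bound_Gamma0 1
    intro n hn
    rw [index_Gamma0_one] at hn
    have hn0 : n = 0 := by
      have h2 : ((2 : ℤ) * ((1 : ℕ) : ℤ)).toNat / 12 = 0 := by decide
      omega
    subst hn0
    exact CuspFormClass.qExpansion_coeff_zero f one_pos h1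
  exact CuspForm.toModularFormₗ_injective (by rw [key, _root_.map_zero])

end Fermat.Agent.S08
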