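-- Statement S10: no Galois-stable cofixed line for the Frey curve when p ∈ {5, 7, 13}.
-- Proof: a Frey package with such an exponent contradicts classical FLT for p = 5, 7, 13 (Kummer).
import Fermat.Statements.S10
import Fermat.Agent.Lib.Kummer.FLTSmall
import Fermat.Agent.Lib.Kummer.SophieGermain
import Fermat.Agent.Lib.Kummer.Assembly

set_option autoImplicit false
open WeierstrassCurve WeierstrassCurve.Affine WeierstrassCurve.Affine.Point
open CuspForm ModularFormClass UpperHalfPlane
open FreyPackage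

namespace Fermat.Agent.S10

theorem result (P : FreyPackage) (hp : P.p = 5 ∨ P.p = 7 ∨ P.p = 13) : ¬ HasGaloisStableCofixedLine (K := AlgebraicClosure ℚ) ℚ P.freyCurve P.p := by
  exfalso
  rcases hp with hp | hp | hp
  · exact Fermat.Agent.Lib.Kummer.false_of_freyPackage P
      (hp ▸ Fermat.Agent.Lib.Kummer.caseI_five) (hp ▸ Fermat.Agent.Lib.Kummer.caseII_five)
  · exact Fermat.Agent.Lib.Kummer.false_of_freyPackage P
      (hp ▸ Fermat.Agent.Lib.Kummer.caseI_seven) (hp ▸ Fermat.Agent.Lib.Kummer.caseII_seven)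
  · exact Fermat.Agent.Lib.Kummer.false_of_freyPackage P
      (hp ▸ Fermat.Agent.Lib.Kummer.caseI_thirteen) (hp ▸ Fermat.Agent.Lib.Kummer.caseII_thirteen)

end Fermat.Agent.S10
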