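-- Statement S11: no Galois-stable cofixed line for the Frey curve when p = 11.
-- Proof: a Frey package with exponent 11 contradicts classical FLT for p = 11 (Kummer).
import Fermat.Statements.S11
import Fermat.Agent.Lib.Kummer.FLTSmall
import Fermat.Agent.Lib.Kummer.SophieGermain
import Fermat.Agent.Lib.Kummer.Assembly

set_option autoImplicit false
open WeierstrassCurve WeierstrassCurve.Affine WeierstrassCurve.Affine.Point
open CuspForm ModularFormClass UpperHalfPlane
open FreyPackage

namespace Fermat.Agent.S11

theorem result (P : FreyPackage) (hp : P.p = 11) : ¬ HasGaloisStableCofixedLine (K := AlgebraicClosure ℚ) ℚ P.freyCurve P.p := by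
  exfalso
  exact Fermat.Agent.Lib.Kummer.false_of_freyPackage P
    (hp ▸ Fermat.Agent.Lib.Kummer.caseI_eleven) (hp ▸ Fermat.Agent.Lib.Kummer.caseII_eleven)

end Fermat.Agent.S11
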