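import Fermat.Statements.S16
import Fermat.Agent.S16.Alg
import Fermat.Agent.S16.Num
import Fermat.Agent.S16.Dual
import Fermat.Agent.S16.Lower

set_option autoImplicit false
open ModularCurve CuspForm

namespace Fermat.Agent.S16

theorem result
    (p : ℕ) [Fact p.Prime] :
    Nat.card (↥(heckeLatticeAlgebra p ∅) ⧸
        Ideal.map ((latticeRestrictHom p ∅).toRingHom.comp (heckeEvalForms p 2))
          (eisensteinIdeal p)) =
      eisensteinNumerator p :=
  main_of p (fun f ℓ r _ a ha hc => no_congruence p f ℓ r a ha hc) (exists_form_of_hom p) (lower p)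

end Fermat.Agent.S16
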