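import Fermat.Statements.S18
import Fermat.Agent.ES.S18Inj
import Fermat.Agent.ES.ConstK
import Fermat.Agent.ES.InjAll

set_option autoImplicit false
open ModularCurve

namespace Fermat.Agent.S18

theorem result (N : ℕ) [NeZero N] {ℓ : ℕ}
    [Fact ℓ.Prime] (hℓN : ¬ ℓ ∣ N) (A : ValuationSubring (AlgebraicClosure ℚ)) (hA : A.LiesOverPrime ℓ)
    (h : ModularCurve.ReductionInputsModL A N) (m : ℕ) (hm : ¬ ℓ ∣ m) (z : ModularCurve.JZero N)
    (hmz : m • z = 0) (hz : ModularCurve.reductionModL A N z = 0) :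
    z = 0 := by
  have hℓ : ℓ.Prime := Fact.out
  have hNm : ¬ ℓ ∣ N * m := fun hd => (hℓ.dvd_mul.mp hd).elim hℓN hm
  exact Fermat.Agent.ES.s18_of_inj N A h m hm
    (Fermat.Agent.ES.inj_of_INJ A N m (Fermat.Agent.ES.inj_all m N ℓ hℓ hNm A hA))
    (Fermat.Agent.ES.constK A N ℓ hℓ hℓN hA) z hmz hz

end Fermat.Agent.S18
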