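-- Statement S22: the Hecke algebra of cusp forms is a finitely generated ℤ-module.
-- Proof: Eichler period polynomials give a finitely generated, Hecke stable, point separating
-- lattice of linear functionals on the space of cusp forms (see Fermat/Agent/S22alt/).
import Fermat.Statements.S22
import Fermat.Agent.S22alt.Main

set_option autoImplicit false
open CuspForm

namespace Fermat.Agent.S22

open scoped MatrixGroups

theorem cuspForm_eq_zero_of_nonpos (N : ℕ) [NeZero N] {k : ℤ} (hk : k ≤ 0)
    (f : CuspForm (CongruenceSubgroup.Gamma0 N) k) : f = 0 := by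
  have key : (CuspForm.toModularFormₗ f) = 0 := by
    apply ModularForm.sturm_bound_Gamma0 N
    intro n hn
    have hn0 : n = 0 := by
      have h1 : (k * ((CongruenceSubgroup.Gamma0 N).index : ℤ)).toNat = 0 := by
        rw [Int.toNat_eq_zero]
        exact mul_nonpos_of_nonpos_of_nonneg hk (by positivity)
      rw [h1] at hn
      simpa using hn
    subst hn0
    exact CuspFormClass.qExpansion_coeff_zero f one_pos
      (CongruenceSubgroup.one_mem_strictPeriods_Gamma0 N)
  exact CuspForm.toModularFormₗ_injective (by rw [key, _root_.map_zero])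

theorem cuspForm_eq_zero_of_one (N : ℕ) [NeZero N]
    (f : CuspForm (CongruenceSubgroup.Gamma0 N) 1) : f = 0 := by
  have hmem : (-1 : GL (Fin 2) ℝ) ∈ (CongruenceSubgroup.Gamma0 N : Subgroup (GL (Fin 2) ℝ)) :=
    ⟨-1, by simp [CongruenceSubgroup.Gamma0_mem], by ext; simp⟩
  have key : (CuspForm.toModularFormₗ f) = 0 :=
    ModularForm.eq_zero_of_neg_one_mem hmem odd_one _
  exact CuspForm.toModularFormₗ_injective (by rw [key, _root_.map_zero])

theorem finite_of_forall_eq_zero (N : ℕ) [NeZero N] (k : ℤ) (S : Set ℕ)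
    (h : ∀ f : CuspForm (CongruenceSubgroup.Gamma0 N) k, f = 0) :
    Module.Finite ℤ (CuspForm.heckeAlgebra N k S) := by
  haveI : Subsingleton (CuspForm (CongruenceSubgroup.Gamma0 N) k) :=
    ⟨fun a b => (h a).trans (h b).symm⟩
  haveI : Subsingleton (CuspForm.heckeAlgebra N k S) :=
    ⟨fun a b => Subtype.ext (LinearMap.ext fun v => Subsingleton.elim _ _)⟩
  infer_instance

theorem result (N : ℕ) [NeZero N] (k : ℤ) (S : Set ℕ) :
    Module.Finite ℤ (CuspForm.heckeAlgebra N k S) := by
  rcases le_or_gt k 0 with hk | hk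
  · exact finite_of_forall_eq_zero N k S (cuspForm_eq_zero_of_nonpos N hk)
  rcases eq_or_ne k 1 with rfl | hk1
  · exact finite_of_forall_eq_zero N 1 S (cuspForm_eq_zero_of_one N)
  obtain ⟨w, rfl⟩ : ∃ w : ℕ, k = (w : ℤ) + 2 := ⟨(k - 2).toNat, by omega⟩
  exact Fermat.Agent.S22alt.finite_heckeAlgebra_add_two N w S

end Fermat.Agent.S22
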