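-- Statement S24: the genus of the modular function field of level `N` is given by the genus formula.
import Fermat.Statements.S24
import Fermat.Agent.S24.Final
import Fermat.Agent.S24.Degree
import Fermat.Agent.S24.Loc4
import Fermat.Agent.S24.LocInf

set_option autoImplicit false
open ModularCurve

namespace Fermat.Agent.S24

open AlgebraicCurve IntermediateField KaehlerDifferential UpperHalfPlane CongruenceSubgroup
open scoped MatrixGroups

/-- the local formula for the order of a differential, at every place -/
theorem ordDifferential_everywhere (N : ℕ) [NeZero N] (v : AlgebraicCurve.Place Kb (FF N))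
    (u : FF N) (hu : v.ord u ≠ 0) (g : FF N) (hg : g ≠ 0) :
    v.ordDifferential (g • D Kb (FF N) u) = v.ord g + v.ord u - 1 := by
  by_cases h : 0 ≤ v.ord (jF N)
  · obtain ⟨a, ha⟩ := (exists_sub_ord_pos (jF N) (transcendental_jF N) v h).exists
    obtain ⟨τ₀, e, hτ, he, hord, -⟩ := Loc.exists_point a
    exact Loc.interior_ordDifferential N (finrank_FF N) a τ₀ hτ e he hord v ha u hu g hg
  · have h' : 0 < v.ord (jF N)⁻¹ := by
      rw [AlgebraicCurve.Place.ord_inv]
      omega
    exact LocInf.infty_ordDifferential N (finrank_FF N) v h' u hu g hg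

/-- the generic fibres of `j` have `[SL₂(ℤ) : Γ₀(N)]` points -/
theorem card_places_generic (N : ℕ) [NeZero N] (a : Kb) (h0 : a ≠ 0) (h1 : a ≠ 1728) :
    Nat.card {v : AlgebraicCurve.Place Kb (FF N) // 0 < v.ord (jF N - algebraMap Kb (FF N) a)}
      = (Gamma0 N).index := by
  obtain ⟨τ₀, e, hτ, he, hord, h⟩ := Loc.exists_point a
  have he1 : e = 1 := h h0 h1
  subst he1
  have key := Loc.interior_card_places N (finrank_FF N) a τ₀ hτ 1 he hord 1 (by simp) (by
    rw [IsPrimitiveRoot.one_right_iff, Loc.denom_eq]
    simp)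
  have h2 : (MulAction.toPerm (1 : SL(2, ℤ)) : Equiv.Perm (SL(2, ℤ) ⧸ Gamma0 N)) = 1 := by
    ext q
    simp
  rw [key, h2]
  exact card_orbits_one N

theorem result (N : ℕ) [NeZero N]
    [AlgebraicCurve.HasCanonicalDivisor (K := AlgebraicClosure ℚ) (F := ↥(ModularCurve.modularFunctionFieldBar N))] :
    (AlgebraicCurve.genus (AlgebraicClosure ℚ) ↥(ModularCurve.modularFunctionFieldBar N) : ℚ)
      = ModularCurve.genusFormula N :=
  Final.genus_eq_genusFormula N (finrank_FF N) (ordDifferential_everywhere N)
    (card_places_generic N) (Loc.card_places_zero N (finrank_FF N))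
    (Loc.card_places_1728 N (finrank_FF N)) (LocInf.card_places_infty N (finrank_FF N))

end Fermat.Agent.S24
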