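import Fermat.Statements.S29
import Fermat.Agent.ES.ES29
import Fermat.Agent.ES.TSupp
import Fermat.Agent.ES.InjAll

set_option autoImplicit false
open CuspForm CuspForm.IsNormalizedEigenform

namespace Fermat.Agent.S29

theorem result
    {N : ℕ} {g : CuspForm (CongruenceSubgroup.Gamma0 N) 2} (hg : g.IsNormalizedEigenform)
    {p : ℕ} (hp : p.Prime) {k : Type} [Field k] [CharP k p]
    (φ : integralClosure ℤ ℂ →+* k) :
    ∃ ρ : ResidualGaloisRep k, ρ.IsAttachedTo g φ ∧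
      ∀ ℓ : ℕ, ℓ.Prime → ¬ ℓ ∣ N * p → ρ.IsUnramifiedAt ℓ := by
  rcases Nat.eq_zero_or_pos N with rfl | hN
  · exact Fermat.Agent.ES.s29_zero φ
  · haveI : NeZero N := ⟨hN.ne'⟩
    haveI : Fact p.Prime := ⟨hp⟩
    exact Fermat.Agent.ES.s29_of hg φ
      (fun ℓ hℓ hℓN A hA => Fermat.Agent.ES.inj_all p N ℓ hℓ hℓN A hA)
      (fun g hg a ha k _ _ φ => Fermat.Agent.ES.exists_eigenvector N p g hg a ha k φ)

end Fermat.Agent.S29
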