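-- Statement S31: the Galois representation of a Hecke-Galois datum is unramified outside `S`.
-- Proof: Fermat/Agent/S31/Core.lean (traces of `ρ(τ g)` and `ρ(g)` agree modulo all powers of the
-- maximal ideal, by weak Chebotarev, the Eichler-Shimura relation on the Kummer groups
-- `KV (p ^ r) N` and the saturation of the Hecke algebra), with the input of the project ES.
import Fermat.Statements.S31
import Fermat.Agent.S31.Wrap
import Fermat.Agent.ES.InjAll

set_option autoImplicit false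
variable {p : ℕ} {N : ℕ} [NeZero N] {S : Finset ℕ}
  {𝒪 : Type} [CommRing 𝒪] [IsDomain 𝒪] [IsDiscreteValuationRing 𝒪]
  [IsAdicComplete (IsLocalRing.maximalIdeal 𝒪) 𝒪]
  {θ : CuspForm.heckeAlgebra N 2 (↑S : Set ℕ) →+* IsLocalRing.ResidueField 𝒪}
  {T : Type} [CommRing T] [IsLocalRing T] [IsNoetherianRing T]
  [IsAdicComplete (IsLocalRing.maximalIdeal T) T] [Algebra 𝒪 T] [IsLocalHom (algebraMap 𝒪 T)]
  [Module.Finite 𝒪 T] [Module.Free 𝒪 T]
open CuspForm CuspForm.HeckeGaloisRepDatum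

namespace Fermat.Agent.S31

theorem result (hp : p.Prime)
    (hp𝒪 : (p : 𝒪) ∈ IsLocalRing.maximalIdeal 𝒪) (hpS : p ∈ S)
    (hNS : ∀ q : ℕ, q.Prime → q ∣ N → q ∈ S)
    (H : CuspForm.HeckeGaloisRepDatum N (↑S : Set ℕ) 𝒪 θ T)
    (q : ℕ) (hq : q.Prime) (hqS : q ∉ S) :
    H.ρ.IsUnramifiedAt q :=
  isUnramifiedAt_of_input hp hp𝒪 hpS hNS H
    (hasInput_of_INJ N p hp fun m ℓ _ hℓ hℓN A hA => Fermat.Agent.ES.inj_all m N ℓ hℓ hℓN A hA)
    q hq hqS

end Fermat.Agent.S31
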