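-- Statement S34: unipotent inertia at `q ∥ N`, `q ≠ p`, for the Galois representation of a
-- Hecke-Galois datum.  Proof: Fermat/Agent/S34/Core.lean (`tr ρ(τ) = 2`, `det ρ(τ) = 1` modulo all
-- powers of the maximal ideal, by weak Chebotarev, the Eichler-Shimura relation on the Kummer groups
-- `KV (p ^ r) N` and the saturation of the Hecke algebra), from the claim (U) of
-- Fermat/Agent/S34/U.lean: `(τ - 1) ^ 2 = 0` on `KV m N`.
import Fermat.Statements.S34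
import Fermat.Agent.S34.Wrap
import Fermat.Agent.S34.U
import Fermat.Agent.ES.InjAll

set_option autoImplicit false
set_option autoImplicit false
open IsLocalRing
open CuspForm CuspForm.HeckeGaloisRepDatum

namespace Fermat.Agent.S34

theorem result
    {𝒪 : Type} [CommRing 𝒪] [IsDomain 𝒪] [IsDiscreteValuationRing 𝒪]
    [IsAdicComplete (maximalIdeal 𝒪) 𝒪] [Finite (ResidueField 𝒪)] [CharZero 𝒪]
    {p : ℕ} (hp : p.Prime) (hp𝒪 : (p : 𝒪) ∈ maximalIdeal 𝒪)
    {N : ℕ} [NeZero N] {S : Finset ℕ} (hpS : p ∈ S) (hNS : ∀ q : ℕ, q.Prime → q ∣ N → q ∈ S)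
    {θ : CuspForm.heckeAlgebra N 2 (↑S : Set ℕ) →+* ResidueField 𝒪}
    {T : Type} [CommRing T] [IsLocalRing T] [IsNoetherianRing T]
    [IsAdicComplete (maximalIdeal T) T] [Algebra 𝒪 T] [IsLocalHom (algebraMap 𝒪 T)]
    [Module.Finite 𝒪 T] [Module.Free 𝒪 T]
    (H : CuspForm.HeckeGaloisRepDatum N (↑S : Set ℕ) 𝒪 θ T)
    (q : ℕ) (hq : q.Prime) (hqp : q ≠ p) (hqN : q ∣ N) (hq2 : ¬ q ^ 2 ∣ N) :
    H.ρ.IsUnipotentOnInertiaAt q :=
  isUnipotentOnInertiaAt_of_input hp hp𝒪 hpS hNS H q hq hqp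
    (hasInputU_of N p q hp
      (fun m ℓ _ hℓ hℓN A hA => Fermat.Agent.ES.inj_all m N ℓ hℓ hℓN A hA)
      (fun r A hA => claimU_pow p r N q hp hq hqp hqN hq2 A hA))

end Fermat.Agent.S34
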