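-- Statement S49 (row 44): Deligne–Serre lifting lemma.
import Fermat.Statements.S49
import Fermat.Agent.S49.Abstract
import Fermat.Agent.S49.Formal
import Fermat.Agent.S49.Modular
import Fermat.Agent.S49.Ideal
import Fermat.Agent.S49.Eigenform

set_option autoImplicit false
open CuspForm EisensteinWeightOne CongruenceSubgroup ModularFormClass
open FLT FLT.AbstractIntegralStructure

namespace Fermat.Agent.S49

theorem result
    {N : ℕ} [NeZero N] (h : CuspForm.HasIntegralBasis N) {a : ℕ → ℤ}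
    (heig : FormalHecke.IsEigensystem
      (fun ℓ => if ℓ ∣ N then 0 else ((chiNegThree ℓ : ℤ) : ℤ)) a)
    (hreal : CuspForm.IsLatticeRealized N a) :
    ∃ (f : CuspForm (Gamma0 N) 2) (_ : f.IsNormalizedEigenform)
      (𝔪' : Ideal (integralClosure ℤ ℂ)), 𝔪'.IsMaximal ∧
      ((3 : ℕ) : integralClosure ℤ ℂ) ∈ 𝔪' ∧
      ∀ (ℓ : ℕ) (_ : ℓ.Prime) (_ : ¬ ℓ ∣ N),
        ∃ c : integralClosure ℤ ℂ, (c : ℂ) = ModularFormClass.qCoeff f ℓ ∧
          c - (a ℓ : integralClosure ℤ ℂ) ∈ 𝔪' := by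
  classical
  obtain ⟨f, -, af, haf, hcong⟩ := hreal
  have D : Setup N a f af := ⟨heig, haf, fun n => by
    have := dvd_add (hcong n) (bridgeProduct_coeff_cong a n)
    simpa using this⟩
  have hfd := finiteDimensional_of_hasIntegralBasis h
  have hfin := heckeAlgebra_finite h ∅
  have hprime := D.eigenIdeal_isPrime
  let ι : CuspForm.heckeAlgebra N 2 ∅ →+* Module.End ℂ (CuspForm (Gamma0 N) 2) :=
    (CuspForm.heckeAlgebra N 2 ∅).val.toRingHom
  have hι : ∀ t : CuspForm.heckeAlgebra N 2 ∅,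
      ι t = (t : Module.End ℂ (CuspForm (Gamma0 N) 2)) := fun _ => rfl
  obtain ⟨μ, v, hv0, hv, hker⟩ :=
    exists_eigensystem_le_prime ι Subtype.val_injective (eigenIdeal f)
  have h3 : (3 : CuspForm.heckeAlgebra N 2 ∅) ∈ eigenIdeal f := by
    refine ⟨f, D.mem_intLattice, ?_⟩
    rw [← hι, map_ofNat]
    ext z
    simp
  obtain ⟨μ', 𝔪', hμ', hmax, hmem⟩ := exists_maximal_over μ (eigenIdeal f) hker h3
  let lam : ℕ → ℂ := fun ℓ =>
    if hℓ : ℓ.Prime then
      (if hN : ℓ ∣ N then μ (CuspForm.heckeAlgebra.U hℓ hN (Set.notMem_empty ℓ))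
        else μ (CuspForm.heckeAlgebra.T hℓ hN (Set.notMem_empty ℓ)))
    else 0
  obtain ⟨g, hg, hglam⟩ := exists_normalizedEigenform v hv0 lam
    (fun ℓ hℓ hℓN => by
      have := hv (CuspForm.heckeAlgebra.T hℓ hℓN (Set.notMem_empty ℓ))
      simp only [lam, dif_pos hℓ, dif_neg hℓN]
      exact this)
    (fun q hq hqN => by
      have := hv (CuspForm.heckeAlgebra.U hq hqN (Set.notMem_empty q))
      simp only [lam, dif_pos hq, dif_pos hqN]
      exact this)
  refine ⟨g, hg, 𝔪', hmax, ?_, ?_⟩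
  · have := hmem 3 h3
    rw [map_ofNat] at this
    simpa using this
  · intro ℓ hℓ hℓN
    refine ⟨μ' (CuspForm.heckeAlgebra.T hℓ hℓN (Set.notMem_empty ℓ)), ?_, ?_⟩
    · rw [hμ', hglam ℓ hℓ]
      simp only [lam, dif_pos hℓ, dif_neg hℓN]
    · have hm : CuspForm.heckeAlgebra.T hℓ hℓN (Set.notMem_empty ℓ) -
          ((a ℓ : ℤ) : CuspForm.heckeAlgebra N 2 ∅) ∈ eigenIdeal f := by
        obtain ⟨g', hg', hh⟩ := D.heckeT_cong hℓ hℓN
        refine ⟨g', hg', ?_⟩
        rw [← hh, ← hι, map_sub, map_intCast, LinearMap.sub_apply, Module.End.intCast_apply,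
          Int.cast_smul_eq_zsmul]
        rfl
      have := hmem _ hm
      rw [map_sub, map_intCast] at this
      exact this

end Fermat.Agent.S49
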