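import Fermat.Statements.S53
import Fermat.Agent.S53.Assembly
import Fermat.Agent.S53.RigidA
import Fermat.Agent.S53.AbstractRep

set_option autoImplicit false
set_option autoImplicit false
open GaloisRep

namespace Fermat.Agent.S53

theorem result
    (𝒪 : Type) [CommRing 𝒪] [IsDomain 𝒪] [IsDiscreteValuationRing 𝒪]
    [IsAdicComplete (IsLocalRing.maximalIdeal 𝒪) 𝒪] [Finite (IsLocalRing.ResidueField 𝒪)]
    (ρbar : ResidualGaloisRep (IsLocalRing.ResidueField 𝒪))
    (𝒟 : ∀ ⦃A : Type⦄ [CommRing A] [IsLocalRing A] [Algebra 𝒪 A], GaloisRepAdic A → Prop)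
    (habs : ρbar.IsAbsolutelyIrreducible)
    (h𝒟 : GaloisRep.IsDeformationCondition 𝒪 𝒟)
    (hbar : 𝒟 (GaloisRepAdic.ofResidualGaloisRep ρbar))
    (hfin : GaloisRep.TangentFinite 𝒪 ρbar 𝒟) :
    Nonempty (GaloisRep.DeformationRingData 𝒪 ρbar 𝒟) := by
  let bbar : Module.Basis (Fin 2) (IsLocalRing.ResidueField 𝒪) ρbar.V :=
    Module.finBasisOfFinrankEq _ _ ρbar.finrank_eq
  obtain ⟨rt, hrt⟩ := exists_setLift (𝒪 := 𝒪) (resMat ρbar bbar)
  obtain ⟨a, b, hf⟩ := exists_isFrame_resMat ρbar bbar habs rt hrt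
  have hrig : IsRigidFunctor 𝒪 XG (x0 rt) (Pts 𝒟 rt a b) :=
    { base := pts_base rt a b
      map := pts_map rt a b h𝒟
      descend := pts_descend rt a b h𝒟
      fibre := pts_fibre rt a b h𝒟
      tangent := RigidB.pts_tangent ρbar bbar hfin hrt hf
      residue := RigidB.pts_residue ρbar bbar h𝒟 hbar hrt hf }
  exact Assembly.nonempty_deformationRingData_of_representable ρbar bbar habs h𝒟 hrt hf
    (representable_of_isRigidFunctor 𝒪 XG (x0 rt) _ hrig)

end Fermat.Agent.S53
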