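import Fermat.Statements.S57
import Fermat.Agent.S57.ProjDim
import Fermat.Agent.S57.PowerSeriesRegular
import Fermat.Agent.S57.FiniteLength

set_option autoImplicit false
open Algebra Algebra.PatchingLevel

namespace Fermat.Agent.S57

open MvPowerSeries RingTheory.Sequence IsLocalRing

section aux

variable {𝒪 : Type} [CommRing 𝒪] {r : ℕ} {R : Type} [CommRing R] [Algebra 𝒪 R]
    {M : Type} [AddCommGroup M] [Module R M]
    (L : Algebra.PatchingLevel 𝒪 r R M ⊥)

/-- the `φ`-semilinear parametrisation of `N` by `P^d` -/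
noncomputable def paramHom : (Fin L.d → MvPowerSeries (Fin r) 𝒪) →+ L.N :=
  AddMonoidHom.mk' (fun c => ∑ i, L.φ (c i) • L.b i) (by
    intro c c'
    simp only [Pi.add_apply, map_add, add_smul, Finset.sum_add_distrib])

theorem paramHom_apply (c : Fin L.d → MvPowerSeries (Fin r) 𝒪) :
    paramHom L c = ∑ i, L.φ (c i) • L.b i := rfl

theorem paramHom_bijective : Function.Bijective (paramHom L) := by
  constructor
  · rw [injective_iff_map_eq_zero]
    intro c hc
    rw [paramHom_apply, L.b_rel] at hc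
    ext1 i
    simpa using hc i
  · intro x
    obtain ⟨c, hc⟩ := L.b_span x
    exact ⟨c, hc.symm⟩

/-- the `φ`-semilinear parametrisation of `N` by `P^d`, as an additive equivalence -/
noncomputable def paramEquiv : (Fin L.d → MvPowerSeries (Fin r) 𝒪) ≃+ L.N :=
  AddEquiv.ofBijective (paramHom L) (paramHom_bijective L)

theorem paramEquiv_smul (f : MvPowerSeries (Fin r) 𝒪) (c : Fin L.d → MvPowerSeries (Fin r) 𝒪) :
    paramEquiv L (f • c) = L.φ f • paramEquiv L c := by
  show paramHom L (f • c) = L.φ f • paramHom L c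
  rw [paramHom_apply, paramHom_apply, Finset.smul_sum]
  refine Finset.sum_congr rfl fun i _ => ?_
  rw [Pi.smul_apply, smul_eq_mul, map_mul, mul_smul]

theorem isWeaklyRegular_map_phi {xs : List (MvPowerSeries (Fin r) 𝒪)}
    (hxs : IsWeaklyRegular (MvPowerSeries (Fin r) 𝒪) xs) :
    IsWeaklyRegular L.N (xs.map L.φ) := by
  have h1 : IsWeaklyRegular (Fin L.d → MvPowerSeries (Fin r) 𝒪) xs := by
    have h2 := hxs.isWeaklyRegular_lTensor (M₂ := Fin L.d → MvPowerSeries (Fin r) 𝒪)
    exact ((TensorProduct.rid _ _).isWeaklyRegular_congr xs).mp h2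
  refine ((paramEquiv L).isWeaklyRegular_congr ?_).mp h1
  exact List.forall₂_map_right_iff.mpr <| List.forall₂_same.mpr fun f _ c => paramEquiv_smul L f c

theorem map_mem_of_mem_smul_top {P N : Type*} [CommRing P] [AddCommGroup N] [Module P N]
    (I : Ideal P) (l : N →ₗ[P] P) {x : N} (hx : x ∈ I • (⊤ : Submodule P N)) : l x ∈ I := by
  refine Submodule.smul_induction_on hx ?_ ?_
  · intro a ha n _
    rw [map_smul, smul_eq_mul]
    exact Ideal.mul_mem_right _ _ ha
  · intro x y hx hy
    rw [map_add]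
    exact I.add_mem hx hy

theorem pi_sum_smul {n : ℕ} (f : Fin n → MvPowerSeries (Fin r) 𝒪) (x : Fin n → L.N) :
    L.π (∑ i, f i • x i) = ∑ i, L.ψ (f i) • L.π (x i) := by
  rw [map_sum]
  exact Finset.sum_congr rfl fun i _ => L.π_smul _ _

/-- the conclusion, given that `N` is free over the power series ring -/
theorem result_of_free [Nontrivial M] [Module.Free (MvPowerSeries (Fin r) 𝒪) L.N]
    [Module.Finite (MvPowerSeries (Fin r) 𝒪) L.N] [Nontrivial (MvPowerSeries (Fin r) 𝒪)] :
    Module.Free R M ∧ Module.annihilator R M = ⊥ ∧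
      RingHom.ker L.ψ = Ideal.span (Set.range fun i : Fin r => L.φ (MvPowerSeries.X i)) := by
  set I : Ideal (MvPowerSeries (Fin r) 𝒪) :=
    Ideal.span (Set.range fun i : Fin r => L.φ (MvPowerSeries.X i)) with hI
  have hIle : I ≤ RingHom.ker L.ψ := by
    rw [hI, Ideal.span_le]
    rintro _ ⟨i, rfl⟩
    exact L.ψ_φ_X i
  let B := Module.finBasis (MvPowerSeries (Fin r) 𝒪) L.N
  have hcoord : ∀ f : Fin _ → MvPowerSeries (Fin r) 𝒪, L.π (∑ i, f i • B i) = 0 → ∀ j, f j ∈ I := by
    intro f hf j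
    rw [L.ker_π] at hf
    have h1 := map_mem_of_mem_smul_top I (B.coord j) hf
    simpa [Finsupp.single_apply] using h1
  have hfree : Module.Free R M := by
    refine Module.Free.of_basis (Module.Basis.mk (v := fun i => L.π (B i)) ?_ ?_)
    · rw [Fintype.linearIndependent_iff]
      intro g hg j
      choose f hf using fun i => L.ψ_surjective (g i)
      have h1 : L.π (∑ i, f i • B i) = 0 := by
        rw [pi_sum_smul, ← hg]
        exact Finset.sum_congr rfl fun i _ => by rw [hf]
      rw [← hf j]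
      exact hIle (hcoord f h1 j)
    · intro m _
      obtain ⟨x, rfl⟩ := L.π_surjective m
      rw [← B.sum_repr x, pi_sum_smul]
      exact Submodule.sum_mem _ fun i _ => Submodule.smul_mem _ _ (Submodule.subset_span ⟨i, rfl⟩)
  refine ⟨hfree, Module.annihilator_eq_bot.mpr inferInstance, le_antisymm ?_ hIle⟩
  intro f hf
  have hne : Nontrivial L.N := by
    obtain ⟨m, hm⟩ := exists_ne (0 : M)
    obtain ⟨x, rfl⟩ := L.π_surjective m
    exact ⟨x, 0, fun h => hm (by rw [h, map_zero])⟩
  have hpos : 0 < Module.finrank (MvPowerSeries (Fin r) 𝒪) L.N :=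
    (Module.finrank_pos_iff_of_free _ _).mpr hne
  let j : Fin (Module.finrank (MvPowerSeries (Fin r) 𝒪) L.N) := ⟨0, hpos⟩
  have h1 : L.π (∑ i, (Pi.single j f : Fin _ → MvPowerSeries (Fin r) 𝒪) i • B i) = 0 := by
    rw [pi_sum_smul]
    refine Finset.sum_eq_zero fun i _ => ?_
    by_cases h : i = j
    · subst h
      rw [Pi.single_eq_same, (RingHom.mem_ker).mp hf, zero_smul]
    · rw [Pi.single_eq_of_ne h, map_zero, zero_smul]
  simpa using hcoord _ h1 j

end aux

theorem result
    {𝒪 : Type} [CommRing 𝒪] [IsDomain 𝒪] [IsDiscreteValuationRing 𝒪]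
    {r : ℕ} {R : Type} [CommRing R] [Algebra 𝒪 R]
    {M : Type} [AddCommGroup M] [Module R M] [Nontrivial M]
    (L : Algebra.PatchingLevel 𝒪 r R M ⊥) :
    Module.Free R M ∧ Module.annihilator R M = ⊥ ∧
      RingHom.ker L.ψ = Ideal.span (Set.range fun i : Fin r => L.φ (MvPowerSeries.X i)) := by
  obtain ⟨ϖ, hϖ⟩ := IsDiscreteValuationRing.exists_irreducible 𝒪
  have hmax : maximalIdeal 𝒪 = Ideal.span {ϖ} := hϖ.maximalIdeal_eq
  have hR : Nontrivial R := Module.nontrivial R M
  have hne : Nontrivial L.N := by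
    obtain ⟨m, hm⟩ := exists_ne (0 : M)
    obtain ⟨x, rfl⟩ := L.π_surjective m
    exact ⟨x, 0, fun h => hm (by rw [h, map_zero])⟩
  have hfin : Module.Finite (MvPowerSeries (Fin r) 𝒪) L.N := by
    classical
    refine ⟨⟨Finset.univ.image L.b, ?_⟩⟩
    rw [_root_.eq_top_iff]
    intro x _
    obtain ⟨c, rfl⟩ := L.b_span x
    exact Submodule.sum_mem _ fun i _ => Submodule.smul_mem _ _ (Submodule.subset_span (by simp))
  have hφC : ∀ a : 𝒪, L.φ (C a) = C a := by
    intro a
    have := L.φ.commutes a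
    rwa [MvPowerSeries.algebraMap_apply, Algebra.algebraMap_self, RingHom.id_apply] at this
  have hxsW : IsWeaklyRegular (MvPowerSeries (Fin r) 𝒪) (xsFull r ϖ) :=
    isWeaklyRegular_xsFull (fun a ha => (mul_eq_zero.mp ha).resolve_left hϖ.ne_zero)
  have hxsm : Ideal.ofList (xsFull r ϖ) = maximalIdeal (MvPowerSeries (Fin r) 𝒪) :=
    ofList_xsFull hmax
  have hxsR : IsRegular (MvPowerSeries (Fin r) 𝒪) (xsFull r ϖ) :=
    (IsLocalRing.isRegular_iff_isWeaklyRegular_of_subset_maximalIdeal (fun x hx => by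
      rw [← hxsm]; exact Ideal.subset_span hx)).mpr hxsW
  have hys : IsWeaklyRegular L.N ((xsFull r ϖ).map L.φ) := isWeaklyRegular_map_phi L hxsW
  have hker : RingHom.ker L.ψ ≤ maximalIdeal (MvPowerSeries (Fin r) 𝒪) :=
    IsLocalRing.le_maximalIdeal (RingHom.ker_ne_top _)
  have hCϖ : (C ϖ : MvPowerSeries (Fin r) 𝒪) ∈ maximalIdeal (MvPowerSeries (Fin r) 𝒪) := by
    rw [← hxsm]
    exact Ideal.subset_span (by simp [xsFull])
  have hmem : ∀ y ∈ (xsFull r ϖ).map L.φ, y ∈ maximalIdeal (MvPowerSeries (Fin r) 𝒪) := by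
    intro y hy
    rw [List.mem_map] at hy
    obtain ⟨x, hx, rfl⟩ := hy
    rw [xsFull, List.mem_append, List.mem_singleton] at hx
    rcases hx with hx | rfl
    · rw [xsUpTo, List.mem_map] at hx
      obtain ⟨j, _, rfl⟩ := hx
      rw [Xn]
      split_ifs with h
      · exact hker (L.ψ_φ_X _)
      · rw [map_zero]; exact zero_mem _
    · rw [hφC]; exact hCϖ
  have hmapI : ∀ f ∈ Ideal.ofList (xsFull r ϖ), L.φ f ∈ Ideal.ofList ((xsFull r ϖ).map L.φ) := by
    intro f hf
    have := Ideal.mem_map_of_mem (L.φ : MvPowerSeries (Fin r) 𝒪 →+* MvPowerSeries (Fin r) 𝒪) hf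
    rw [Ideal.map_ofList] at this
    exact this
  have hfl : IsFiniteLength (MvPowerSeries (Fin r) 𝒪)
      (L.N ⧸ Ideal.ofList ((xsFull r ϖ).map L.φ) • (⊤ : Submodule (MvPowerSeries (Fin r) 𝒪) L.N)) := by
    refine isFiniteLength_of_span (𝒪 := 𝒪) (fun i => Submodule.Quotient.mk (L.b i)) ?_ ?_
    · intro x
      obtain ⟨x, rfl⟩ := Submodule.Quotient.mk_surjective _ x
      obtain ⟨c, rfl⟩ := L.b_span x
      refine ⟨fun i => constantCoeff (c i), ?_⟩
      simp only [← Submodule.Quotient.mk_smul]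
      rw [← Submodule.mkQ_apply]
      simp only [← Submodule.mkQ_apply]
      rw [← map_sum, Submodule.mkQ_apply, Submodule.mkQ_apply, Submodule.Quotient.eq,
        ← Finset.sum_sub_distrib]
      refine Submodule.sum_mem _ fun i _ => ?_
      rw [← sub_smul, MvPowerSeries.algebraMap_apply, Algebra.algebraMap_self, RingHom.id_apply,
        ← hφC, ← map_sub]
      refine Submodule.smul_mem_smul (hmapI _ ?_) Submodule.mem_top
      rw [hxsm, IsLocalRing.mem_maximalIdeal, mem_nonunits_iff, isUnit_iff_constantCoeff]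
      simp
    · intro a ha x
      obtain ⟨x, rfl⟩ := Submodule.Quotient.mk_surjective _ x
      rw [← Submodule.Quotient.mk_smul, Submodule.Quotient.mk_eq_zero,
        MvPowerSeries.algebraMap_apply, Algebra.algebraMap_self, RingHom.id_apply, ← hφC]
      refine Submodule.smul_mem_smul (hmapI _ ?_) Submodule.mem_top
      rw [hxsm, IsLocalRing.mem_maximalIdeal, mem_nonunits_iff, isUnit_iff_constantCoeff,
        constantCoeff_C]
      exact ha
  have hfree : Module.Free (MvPowerSeries (Fin r) 𝒪) L.N :=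
    free_of_regular_sequences (xsFull r ϖ) hxsR hxsm L.N ((xsFull r ϖ).map L.φ) (by simp) hys hmem
      hfl
  exact result_of_free L

end Fermat.Agent.S57
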